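import Fermat.Agent.S14.Frob.API

/-!
# S14 / Crossing (T7, owner helper21): small auxiliary lemmas for the reduction
-/

set_option autoImplicit false

namespace Fermat.Agent.S14.Crossing

open NumberField
open scoped Pointwise

/-- `principalSum` commutes with multiplication by a constant. -/
theorem principalSum_const_mul {p : ℕ} (K : Type*) [Field K] [NumberField K] (c : ZMod p)
    (e : Ideal (𝓞 K) → ZMod p) (y : 𝓞 K) :
    principalSum K (fun q => c * e q) y = c * principalSum K e y := by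
  unfold principalSum
  exact Multiset.sum_map_mul_left

/-- Every nonzero prime of `𝓞 K` contains a rational prime. -/
theorem exists_prime_natCast_mem_of_ne_bot (K : Type*) [Field K] [NumberField K]
    (q : Ideal (𝓞 K)) (hq : q.IsPrime) (hq0 : q ≠ ⊥) :
    ∃ ℓ : ℕ, ℓ.Prime ∧ ((ℓ : ℕ) : 𝓞 K) ∈ q := by
  have key : ∀ n : ℕ, n ≠ 0 → ((n : ℕ) : 𝓞 K) ∈ q → ∃ ℓ : ℕ, ℓ.Prime ∧ ((ℓ : ℕ) : 𝓞 K) ∈ q := by
    intro n
    induction n using Nat.recOnMul with
    | zero => intro h; exact absurd rfl h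
    | one =>
      intro _ h
      exfalso
      apply hq.ne_top
      rw [Ideal.eq_top_iff_one]
      simpa using h
    | prime ℓ hℓ => intro _ h; exact ⟨ℓ, hℓ, h⟩
    | mul a b iha ihb =>
      intro hab h
      rw [Nat.cast_mul] at h
      rcases hq.mem_or_mem h with h | h
      · exact iha (fun h0 => hab (by simp [h0])) h
      · exact ihb (fun h0 => hab (by simp [h0])) h
  exact key (Ideal.absNorm q) (fun h => hq0 (Ideal.absNorm_eq_zero_iff.mp h)) (Ideal.absNorm_mem q)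

/-- A prime of `𝓞 K` contains at most one rational prime. -/
theorem natCast_not_mem_of_ne (K : Type*) [Field K] [NumberField K]
    (q : Ideal (𝓞 K)) (hq : q.IsPrime) (ℓ r : ℕ) (hℓ : ℓ.Prime) (hr : r.Prime) (hne : r ≠ ℓ)
    (hℓq : ((ℓ : ℕ) : 𝓞 K) ∈ q) : ((r : ℕ) : 𝓞 K) ∉ q := by
  intro hrq
  have hcop : IsCoprime (ℓ : ℤ) (r : ℤ) :=
    Nat.Coprime.isCoprime ((Nat.coprime_primes hℓ hr).mpr (Ne.symm hne))
  obtain ⟨a, b, hab⟩ := hcop
  apply hq.ne_top
  rw [Ideal.eq_top_iff_one]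
  have h1 : (1 : 𝓞 K) = (a : 𝓞 K) * ((ℓ : ℕ) : 𝓞 K) + (b : 𝓞 K) * ((r : ℕ) : 𝓞 K) := by
    have := congrArg (Int.cast : ℤ → 𝓞 K) hab
    push_cast at this
    exact this.symm
  rw [h1]
  exact q.add_mem (q.mul_mem_left _ hℓq) (q.mul_mem_left _ hrq)

/-- In `K = ℚ(ζ_p)` the norm of a prime `q ∋ ℓ` is `ℓ ^ f` with `0 < f < p`
(`f ≤ [K : ℚ] = p - 1`). -/
theorem card_quot_eq_prime_pow {p : ℕ} [Fact p.Prime]
    (K : Type) [Field K] [NumberField K] [IsCyclotomicExtension {p} ℚ K]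
    (q : Ideal (𝓞 K)) (hq : q.IsPrime) (ℓ : ℕ) (hℓ : ℓ.Prime) (hℓq : ((ℓ : ℕ) : 𝓞 K) ∈ q) :
    ∃ f : ℕ, 0 < f ∧ f < p ∧ Nat.card (𝓞 K ⧸ q) = ℓ ^ f := by
  have hp : p.Prime := Fact.out
  have : NeZero p := ⟨hp.ne_zero⟩
  have hle : Ideal.span {((ℓ : ℕ) : 𝓞 K)} ≤ q := (Ideal.span_singleton_le_iff_mem _).mpr hℓq
  have hdvd : Ideal.absNorm q ∣ ℓ ^ (p - 1) := by
    have h1 := Ideal.absNorm_dvd_absNorm_of_le hle
    rwa [Ideal.absNorm_span_natCast, RingOfIntegers.rank,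
      IsCyclotomicExtension.Rat.finrank p K, Nat.totient_prime hp] at h1
  obtain ⟨f, hf, hqf⟩ := (Nat.dvd_prime_pow hℓ).mp hdvd
  refine ⟨f, ?_, ?_, ?_⟩
  · rcases Nat.eq_zero_or_pos f with h0 | h0
    · exfalso
      rw [h0, pow_zero, Ideal.absNorm_eq_one_iff] at hqf
      exact hq.ne_top hqf
    · exact h0
  · have := hp.pos
    omega
  · rw [← hqf, Ideal.absNorm_apply, Submodule.cardQuot_apply]

end Fermat.Agent.S14.Crossing
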