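import Fermat.Agent.S14.Crossing.NormChar

/-!
# S14 / Crossing (T7, owner helper21): block [E2] — cyclotomic norm residues

`K = ℚ(ζ_p)`, `r ≡ 1 mod p` a prime.  If `z ∈ 𝓞 K` is a `p`-th power residue modulo every prime
`𝔯 ∣ r` of `K`, then `absNorm (z) = |N_{K/ℚ} z|` is a `p`-th power modulo `r`
(`N z = ∏_δ δ z`; reduce modulo one fixed `𝔯₀ ∣ r`, whose residue field is `𝔽_r` because the
Frobenius at `𝔯₀` fixes `ζ_p`; `-1` is a `p`-th power).  Consequently the norm character kills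
`(z)`.
-/

set_option autoImplicit false

namespace Fermat.Agent.S14.Crossing

open NumberField
open scoped Pointwise

/-- A prime of `𝓞 K` containing the prime number `r` lies over `(r) ⊆ ℤ`. -/
theorem cycNorm_liesOver_span (K : Type) [Field K] [NumberField K]
    (r : ℕ) (hr : r.Prime)
    (𝔯 : Ideal (𝓞 K)) (h𝔯 : 𝔯.IsPrime) (hr𝔯 : ((r : ℕ) : 𝓞 K) ∈ 𝔯) :
    𝔯.LiesOver (Ideal.span {(r : ℤ)}) := by
  have : Fact r.Prime := ⟨hr⟩
  rw [Ideal.liesOver_iff]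
  refine Ideal.IsMaximal.eq_of_le (Int.ideal_span_isMaximal_of_prime r) Ideal.IsPrime.ne_top' ?_
  rw [Ideal.span_singleton_le_iff_mem, Ideal.mem_comap, algebraMap_int_eq, map_natCast]
  exact hr𝔯

/-- The residue field of a prime `𝔯 ∣ r` of `K = ℚ(ζ_p)`, `r ≡ 1 mod p`, has `r` elements. -/
theorem cycNorm_card_quot {p : ℕ} [Fact p.Prime]
    (K : Type) [Field K] [NumberField K] [IsCyclotomicExtension {p} ℚ K]
    (r : ℕ) (hr : r.Prime) (hpr : p ∣ r - 1)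
    (𝔯 : Ideal (𝓞 K)) (h𝔯 : 𝔯.IsPrime) (hr𝔯 : ((r : ℕ) : 𝓞 K) ∈ 𝔯) :
    Nat.card (𝓞 K ⧸ 𝔯) = r := by
  have : Fact r.Prime := ⟨hr⟩
  have := cycNorm_liesOver_span K r hr 𝔯 h𝔯 hr𝔯
  have hp : p.Prime := Fact.out
  have hrp : ¬ r ∣ p := by
    intro h
    have := (Nat.prime_dvd_prime_iff_eq hr hp).mp h
    subst this
    have h1 : r ≤ r - 1 := Nat.le_of_dvd (by have := hr.two_le; omega) hpr
    have := hr.two_le
    omega
  have h1 := IsCyclotomicExtension.Rat.inertiaDeg_eq_of_not_dvd r K 𝔯 hrp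
  have h2 : ((r : ℕ) : ZMod p) = 1 := by
    have h3 : ((r - 1 : ℕ) : ZMod p) = 0 := (ZMod.natCast_eq_zero_iff _ _).mpr hpr
    have h4 : (r : ZMod p) = ((r - 1 : ℕ) : ZMod p) + 1 := by
      have : r = (r - 1) + 1 := by have := hr.two_le; omega
      conv_lhs => rw [this]
      push_cast
      rfl
    rw [h4, h3, zero_add]
  rw [h2, orderOf_one] at h1
  have h5 := Ideal.pow_inertiaDeg r 𝔯
  rw [h1, pow_one, Ideal.absNorm_apply, Submodule.cardQuot_apply] at h5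
  exact h5.symm

/-- The residue field of a prime `𝔯 ∣ r` of `K = ℚ(ζ_p)`, `r ≡ 1 mod p`, is `𝔽_r`: every element
of `𝓞 K` is congruent to a rational integer modulo `𝔯`. -/
theorem exists_int_congr {p : ℕ} [Fact p.Prime]
    (K : Type) [Field K] [NumberField K] [IsCyclotomicExtension {p} ℚ K]
    (r : ℕ) (hr : r.Prime) (hpr : p ∣ r - 1)
    (𝔯 : Ideal (𝓞 K)) (h𝔯 : 𝔯.IsPrime) (hr𝔯 : ((r : ℕ) : 𝓞 K) ∈ 𝔯) (x : 𝓞 K) :
    ∃ n : ℤ, x - (n : 𝓞 K) ∈ 𝔯 := by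
  have : Fact r.Prime := ⟨hr⟩
  have hcard := cycNorm_card_quot K r hr hpr 𝔯 h𝔯 hr𝔯
  have h1 : (1 : 𝓞 K ⧸ 𝔯) ≠ 0 := by
    intro h
    have : (Ideal.Quotient.mk 𝔯 (1 : 𝓞 K)) = 0 := h
    rw [Ideal.Quotient.eq_zero_iff_mem] at this
    exact h𝔯.ne_top ((Ideal.eq_top_iff_one _).mpr this)
  have h2 : Ideal.Quotient.mk 𝔯 x ∈ AddSubgroup.zmultiples (1 : 𝓞 K ⧸ 𝔯) :=
    mem_zmultiples_of_prime_card hcard h1
  obtain ⟨n, hn⟩ := AddSubgroup.mem_zmultiples_iff.mp h2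
  refine ⟨n, ?_⟩
  rw [← Ideal.Quotient.eq_zero_iff_mem, map_sub, ← hn]
  simp

/-- The norm of an integer of a Galois number field over `ℚ`, as a product over the Galois
group. -/
theorem cycNorm_intCast_norm_eq_prod (K : Type) [Field K] [NumberField K] [IsGalois ℚ K]
    (z : 𝓞 K) : ((Algebra.norm ℤ z : ℤ) : 𝓞 K) = ∏ δ : K ≃ₐ[ℚ] K, δ • z := by
  apply RingOfIntegers.ext
  have h1 := Algebra.coe_norm_int z
  have h2 := Algebra.norm_eq_prod_automorphisms ℚ (z : K)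
  rw [← h1] at h2
  change algebraMap (𝓞 K) K _ = algebraMap (𝓞 K) K _
  rw [map_intCast, map_prod]
  rw [eq_ratCast, Rat.cast_intCast] at h2
  rw [h2]
  rfl

/-- An integer lying in a prime of `𝓞 K` that contains the prime number `r` is divisible by
`r`. -/
theorem cycNorm_dvd_of_intCast_mem (K : Type) [Field K] [NumberField K]
    (r : ℕ) (hr : r.Prime)
    (𝔯 : Ideal (𝓞 K)) (h𝔯 : 𝔯.IsPrime) (hr𝔯 : ((r : ℕ) : 𝓞 K) ∈ 𝔯) (m : ℤ)
    (hm : (m : 𝓞 K) ∈ 𝔯) : (r : ℤ) ∣ m := by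
  have h := cycNorm_liesOver_span K r hr 𝔯 h𝔯 hr𝔯
  have h1 : m ∈ 𝔯.under ℤ := by
    rw [Ideal.under_def, Ideal.mem_comap, algebraMap_int_eq, eq_intCast]
    exact hm
  rw [← h.over, Ideal.mem_span_singleton] at h1
  exact h1

/-- There is a prime of `𝓞 K` containing the prime number `r`. -/
theorem cycNorm_exists_prime_mem (K : Type) [Field K] [NumberField K] (r : ℕ) (hr : r.Prime) :
    ∃ 𝔯 : Ideal (𝓞 K), 𝔯.IsPrime ∧ ((r : ℕ) : 𝓞 K) ∈ 𝔯 := by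
  have : Fact r.Prime := ⟨hr⟩
  have : (Ideal.span {(r : ℤ)}).IsPrime := (Int.ideal_span_isMaximal_of_prime r).isPrime
  obtain ⟨⟨P, hP, hP'⟩⟩ := (Ideal.span {(r : ℤ)}).nonempty_primesOver (S := 𝓞 K)
  refine ⟨P, hP, ?_⟩
  have h1 : (r : ℤ) ∈ P.under ℤ := by
    rw [← hP'.over]
    exact Ideal.subset_span rfl
  rw [Ideal.under_def, Ideal.mem_comap, algebraMap_int_eq, eq_intCast] at h1
  simpa using h1

/-- [E2] -/
theorem absNorm_pow_residue {p : ℕ} [Fact p.Prime] (hp : p ≠ 2)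
    (K : Type) [Field K] [NumberField K] [IsCyclotomicExtension {p} ℚ K]
    (r : ℕ) (hr : r.Prime) (hpr : p ∣ r - 1) (z : 𝓞 K)
    (hz : ∀ 𝔯 : Ideal (𝓞 K), 𝔯.IsPrime → ((r : ℕ) : 𝓞 K) ∈ 𝔯 → ∃ u : 𝓞 K, z - u ^ p ∈ 𝔯) :
    ∃ w : ZMod r, ((Ideal.absNorm (Ideal.span {z}) : ℕ) : ZMod r) = w ^ p := by
  have hG : IsGalois ℚ K := IsCyclotomicExtension.isGalois {p} ℚ K
  have hpodd : Odd p := (Fact.out : p.Prime).odd_of_ne_two hp
  obtain ⟨𝔯₀, h𝔯₀, hr𝔯₀⟩ := cycNorm_exists_prime_mem K r hr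
  -- the conjugates of `z` are `p`-th powers modulo `𝔯₀`
  have key : ∀ δ : K ≃ₐ[ℚ] K, ∃ v : 𝓞 K, δ • z - v ^ p ∈ 𝔯₀ := by
    intro δ
    have hprime : (Ideal.comap (MulSemiringAction.toRingHom (K ≃ₐ[ℚ] K) (𝓞 K) δ) 𝔯₀).IsPrime :=
      Ideal.comap_isPrime _ _
    have hmem : ((r : ℕ) : 𝓞 K) ∈
        Ideal.comap (MulSemiringAction.toRingHom (K ≃ₐ[ℚ] K) (𝓞 K) δ) 𝔯₀ := by
      rw [Ideal.mem_comap, map_natCast]
      exact hr𝔯₀
    obtain ⟨u, hu⟩ := hz _ hprime hmem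
    refine ⟨δ • u, ?_⟩
    rw [Ideal.mem_comap, MulSemiringAction.toRingHom_apply, smul_sub, smul_pow'] at hu
    exact hu
  choose v hv using key
  obtain ⟨n, hn⟩ := exists_int_congr K r hr hpr 𝔯₀ h𝔯₀ hr𝔯₀ (∏ δ : K ≃ₐ[ℚ] K, v δ)
  -- the norm is congruent to `n ^ p`
  have hmem : (((Algebra.norm ℤ z - n ^ p : ℤ)) : 𝓞 K) ∈ 𝔯₀ := by
    rw [← Ideal.Quotient.eq_zero_iff_mem]
    have h1 : ∀ δ : K ≃ₐ[ℚ] K,
        Ideal.Quotient.mk 𝔯₀ (δ • z) = Ideal.Quotient.mk 𝔯₀ (v δ) ^ p := by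
      intro δ
      rw [← map_pow]
      exact Ideal.Quotient.eq.mpr (hv δ)
    have h2 : Ideal.Quotient.mk 𝔯₀ (∏ δ : K ≃ₐ[ℚ] K, v δ) = Ideal.Quotient.mk 𝔯₀ (n : 𝓞 K) :=
      Ideal.Quotient.eq.mpr hn
    rw [Int.cast_sub, map_sub, cycNorm_intCast_norm_eq_prod, map_prod,
      Finset.prod_congr rfl (fun δ _ => h1 δ), Finset.prod_pow, ← map_prod, h2, Int.cast_pow,
      map_pow, sub_self]
  have hdvd : (r : ℤ) ∣ Algebra.norm ℤ z - n ^ p :=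
    cycNorm_dvd_of_intCast_mem K r hr 𝔯₀ h𝔯₀ hr𝔯₀ _ hmem
  have hcong : ((Algebra.norm ℤ z : ℤ) : ZMod r) = (n : ZMod r) ^ p := by
    have := (ZMod.intCast_zmod_eq_zero_iff_dvd _ r).mpr hdvd
    rw [Int.cast_sub, sub_eq_zero, Int.cast_pow] at this
    exact this
  rw [Ideal.absNorm_span_singleton]
  rcases Int.natAbs_eq (Algebra.norm ℤ z) with h | h
  · refine ⟨(n : ZMod r), ?_⟩
    rw [← hcong]
    conv_rhs => rw [h]
    simp
  · refine ⟨-(n : ZMod r), ?_⟩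
    rw [hpodd.neg_pow, ← hcong]
    conv_rhs => rw [h]
    simp

/-- [E] The norm character kills `(z)` when `z` is prime to `r` and a `p`-th power residue modulo
every prime of `K` above `r`. -/
theorem principalSum_normChar_eq_zero {p : ℕ} [Fact p.Prime] (hp : p ≠ 2)
    (K : Type) [Field K] [NumberField K] [IsCyclotomicExtension {p} ℚ K]
    (r : ℕ) (hr : r.Prime) (hpr : p ∣ r - 1)
    (χ : (ZMod r)ˣ →* Multiplicative (ZMod p)) (z : 𝓞 K) (hz0 : z ≠ 0)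
    (hz : ∀ 𝔯 : Ideal (𝓞 K), 𝔯.IsPrime → ((r : ℕ) : 𝓞 K) ∈ 𝔯 →
      z ∉ 𝔯 ∧ ∃ u : 𝓞 K, z - u ^ p ∈ 𝔯) :
    principalSum K (normChar K χ) z = 0 := by
  have : Fact r.Prime := ⟨hr⟩
  have hp0 : p ≠ 0 := (Fact.out : p.Prime).ne_zero
  obtain ⟨hcop, hsum⟩ := principalSum_normChar K hr χ z hz0 (fun 𝔯 h1 h2 => (hz 𝔯 h1 h2).1)
  obtain ⟨w, hw⟩ := absNorm_pow_residue hp K r hr hpr z (fun 𝔯 h1 h2 => (hz 𝔯 h1 h2).2)
  have hu := coe_unitOfNat r _ hcop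
  rw [hw] at hu
  have hw0 : w ≠ 0 := by
    rintro rfl
    rw [zero_pow hp0] at hu
    exact (unitOfNat r (Ideal.absNorm (Ideal.span {z}))).ne_zero hu
  have hu' : unitOfNat r (Ideal.absNorm (Ideal.span {z})) = (Units.mk0 w hw0) ^ p := by
    apply Units.ext
    rw [hu, Units.val_pow_eq_pow_val, Units.val_mk0]
  rw [hsum, hu', map_pow, toAdd_pow, nsmul_eq_mul, CharP.cast_eq_zero, zero_mul]

end Fermat.Agent.S14.Crossing
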