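import Fermat.Agent.S14.Iface.SecondInequality
import Fermat.Agent.S14.Frob.API
import Fermat.Agent.S14.Crossing.Basic
import Fermat.Agent.S14.Crossing.CycNorm
import Fermat.Agent.S14.Crossing.Apply.Tower
import Fermat.Agent.S14.Crossing.Apply.FixedField
import Fermat.Agent.S14.Crossing.Apply.Unram
import Fermat.Agent.S14.Crossing.Apply.Split
import Fermat.Agent.S14.Crossing.Apply.DegOne
import Fermat.Agent.S14.Crossing.Apply.NormPow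

/-!
# S14 / Crossing (T7, owner helper21): block [D] — applying the second inequality to `M/F`

Input: `K = ℚ(ζ_p)`; `e, ψ` functions on primes of `K`, `ψ` kills principal ideals and the primes
where `e` vanishes; a prime `r ≡ 1 mod p`, a surjective character `χ` of `(ZMod r)ˣ`; the crossing
field `M/K` with its two characters `a, b` (output of `exists_crossing_field`: `(a,b)` bijective
onto `(ZMod p)²`, Frobenius at `Q ∤ r` is `(e q, χ(N q))`, `M/K` unramified outside `r`, `a` trivial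
and `b` nontrivial on inertia above `r`); two primes `q₁, q₂ ∤ r` of `K` with `e q₁ ≠ 0`,
`χ(N q₁) ≠ 0` and `(e q₁, e q₂)` proportional to `(χ(N q₁), χ(N q₂))`.
Output: `e q₁ * ψ q₂ = e q₂ * ψ q₁`.

Proof: `α := e q₁`, `β := χ(N q₁)`, `Λ := β·a − α·b : Gal(M/K) → ZMod p`, `H := ker Λ` (order `p`),
`F := fixedField H`.  `M/F` is Galois of degree `p`, unramified everywhere.  On primes `𝔔` of `F`
put `e_F 𝔔 := f(𝔔|q) • e q`, `ψ_F 𝔔 := f(𝔔|q) • ψ q` (`q = 𝔔 ∩ K`); `R := primes of F above r`.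
`secondInequality F M R e_F ψ_F`, evaluated at degree-one primes of `F` above `q₁, q₂`.
-/

set_option autoImplicit false

namespace Fermat.Agent.S14.Crossing

open NumberField
open scoped Pointwise

theorem crossing_of_field {p : ℕ} [Fact p.Prime] (hp : p ≠ 2)
    (K : Type) [Field K] [NumberField K] [IsCyclotomicExtension {p} ℚ K]
    (e ψ : Ideal (𝓞 K) → ZMod p)
    (hψp : ∀ y : 𝓞 K, y ≠ 0 → principalSum K ψ y = 0)
    (hψe : ∀ q : Ideal (𝓞 K), q.IsPrime → q ≠ ⊥ → e q = 0 → ψ q = 0)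
    (r : ℕ) (hr : r.Prime) (hrp : r ≠ p) (hpr : p ∣ r - 1)
    (χ : (ZMod r)ˣ →* Multiplicative (ZMod p)) (hχ : Function.Surjective χ)
    (M : Type) [Field M] [NumberField M] [Algebra K M] [IsGalois K M]
    (a b : (M ≃ₐ[K] M) →* Multiplicative (ZMod p))
    (hinj : ∀ g : M ≃ₐ[K] M, a g = 1 → b g = 1 → g = 1)
    (hsurj : ∀ u v : Multiplicative (ZMod p), ∃ g : M ≃ₐ[K] M, a g = u ∧ b g = v)
    (hM2 : ∀ Q : Ideal (𝓞 M), Q.IsPrime → Q ≠ ⊥ → ((r : ℕ) : 𝓞 M) ∉ Q →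
        UnramifiedAt K M Q ∧
        ∀ g : M ≃ₐ[K] M, IsArithFrobAt (𝓞 K) g Q →
          a g = Multiplicative.ofAdd (e (Q.under (𝓞 K))) ∧
          ∀ u : (ZMod r)ˣ, (u : ZMod r) = (Nat.card (𝓞 K ⧸ Q.under (𝓞 K)) : ZMod r) →
            b g = χ u)
    (hM3 : ∀ Q : Ideal (𝓞 M), Q.IsPrime → ((r : ℕ) : 𝓞 M) ∈ Q →
        (∀ g ∈ Q.inertia (M ≃ₐ[K] M), a g = 1) ∧
        ∃ g ∈ Q.inertia (M ≃ₐ[K] M), b g ≠ 1)
    (q₁ q₂ : Ideal (𝓞 K)) (hq₁ : q₁.IsPrime) (hq₁0 : q₁ ≠ ⊥) (hq₂ : q₂.IsPrime) (hq₂0 : q₂ ≠ ⊥)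
    (hr₁ : ((r : ℕ) : 𝓞 K) ∉ q₁) (hr₂ : ((r : ℕ) : 𝓞 K) ∉ q₂)
    (he₁ : e q₁ ≠ 0) (hχ₁ : normChar K χ q₁ ≠ 0)
    (hprop : e q₁ * normChar K χ q₂ = e q₂ * normChar K χ q₁) :
    e q₁ * ψ q₂ = e q₂ * ψ q₁ := by
  classical
  set α : ZMod p := e q₁ with hα_def
  set β : ZMod p := normChar K χ q₁ with hβ_def
  obtain ⟨F, _, _, _, _, _, _, _, hFM, hKF, hF⟩ :=
    exists_fixed_field K M a b hinj hsurj α β he₁
  have hF1 : ∀ g : M ≃ₐ[K] M, (∀ x : F, g (algebraMap F M x) = algebraMap F M x) →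
      β * Multiplicative.toAdd (a g) = α * Multiplicative.toAdd (b g) := fun g hg => (hF g).1 hg
  have hF2 : ∀ g : M ≃ₐ[K] M, β * Multiplicative.toAdd (a g) = α * Multiplicative.toAdd (b g) →
      ∀ x : F, g (algebraMap F M x) = algebraMap F M x := fun g hg => (hF g).2 hg
  have hunrF : UnramifiedEverywhere F M :=
    unramifiedEverywhere_of_tower K M F a b α β he₁ hinj hF1 r
      (fun Q hQ hQ0 hrQ => (hM2 Q hQ hQ0 hrQ).1) (fun Q hQ hrQ => (hM3 Q hQ hrQ).1)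
  -- the finite set `R` of primes of `F` above `r`
  have hfin := finite_primes_containing F r hr.ne_zero
  set R : Finset (Ideal (𝓞 F)) := hfin.toFinset with hR_def
  have hmemR : ∀ w : Ideal (𝓞 F), w.IsPrime → (w ∈ R ↔ ((r : ℕ) : 𝓞 F) ∈ w) := by
    intro w hw
    rw [hR_def, Set.Finite.mem_toFinset]
    exact ⟨fun h => h.2, fun h => ⟨hw, h⟩⟩
  have hR : ∀ w ∈ R, w.IsPrime ∧ w ≠ ⊥ := by
    intro w hw
    rw [hR_def, Set.Finite.mem_toFinset] at hw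
    refine ⟨hw.1, ?_⟩
    rintro rfl
    have h0 : ((r : ℕ) : 𝓞 F) = 0 := by simpa using hw.2
    exact hr.ne_zero (by exact_mod_cast h0)
  set eF : Ideal (𝓞 F) → ZMod p := fun 𝔔 => (𝔔.inertiaDeg (𝓞 K)) • e (𝔔.under (𝓞 K)) with heF
  set ψF : Ideal (𝓞 F) → ZMod p := fun 𝔔 => (𝔔.inertiaDeg (𝓞 K)) • ψ (𝔔.under (𝓞 K)) with hψF
  set cF : Ideal (𝓞 F) → ZMod p :=
    fun 𝔔 => (𝔔.inertiaDeg (𝓞 K)) • normChar K χ (𝔔.under (𝓞 K)) with hcF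
  have hζ : ∃ ζ : F, IsPrimitiveRoot ζ p := by
    obtain ⟨ζ, hζ⟩ := IsCyclotomicExtension.exists_isPrimitiveRoot ℚ K (Set.mem_singleton p)
      (Fact.out : p.Prime).ne_zero
    exact ⟨algebraMap K F ζ, hζ.map_of_injective (algebraMap K F).injective⟩
  have he : ∀ y : 𝓞 F, y ≠ 0 → (∀ w ∈ R, y ∉ w) → principalSum F eF y = 0 := by
    intro y hy hyR
    have hN0 : Algebra.intNorm (𝓞 K) (𝓞 F) y ≠ 0 := Algebra.intNorm_ne_zero.mpr hy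
    have h1 : principalSum F eF y = principalSum F (fun 𝔔 => (α / β) * cF 𝔔) y := by
      apply Frob.principalSum_congr F eF _ y hy
      intro 𝔔 h𝔔 h𝔔0 hy𝔔
      have hr𝔔 : ((r : ℕ) : 𝓞 F) ∉ 𝔔 := fun h => hyR 𝔔 ((hmemR 𝔔 h𝔔).2 h) hy𝔔
      have h3 := inertiaDeg_mul_eq_zero K M F a b α β hF1 e r hr χ hM2 𝔔 h𝔔 h𝔔0 hr𝔔
      simp only [heF, hcF, nsmul_eq_mul]
      field_simp
      linear_combination h3
    rw [h1, principalSum_const_mul, hcF, ← Frob.principalSum_intNorm K F (normChar K χ) y hy,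
      principalSum_normChar_eq_zero hp K r hr hpr χ _ hN0 ?_, mul_zero]
    intro 𝔯 h𝔯 hr𝔯
    obtain ⟨u, hu, hu'⟩ := intNorm_congr_pow K M F hKF a b α β he₁ hF1 r hr hM3 𝔯 h𝔯 hr𝔯 y
    have hu𝔯 : u ∉ 𝔯 := hu' (fun ℜ hℜ hrℜ => hyR ℜ ((hmemR ℜ hℜ).2 hrℜ))
    refine ⟨?_, u, hu⟩
    intro hN
    have hup : u ^ p ∈ 𝔯 := by
      have := 𝔯.sub_mem hN hu
      simpa using this
    exact hu𝔯 (h𝔯.mem_of_pow_mem p hup)
  have he' : ∀ y : 𝓞 F, y ≠ 0 → (∀ w ∈ R, y ∉ w) → principalSum F ψF y = 0 := by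
    intro y hy _
    have hN0 : Algebra.intNorm (𝓞 K) (𝓞 F) y ≠ 0 := Algebra.intNorm_ne_zero.mpr hy
    rw [hψF, ← Frob.principalSum_intNorm K F ψ y hy]
    exact hψp _ hN0
  have hs : ∀ q : Ideal (𝓞 F), q.IsPrime → q ≠ ⊥ → q ∉ R → SplitsCompletely F M q →
      eF q = 0 := by
    intro 𝔔 h𝔔 h𝔔0 h𝔔R hsp
    have hr𝔔 : ((r : ℕ) : 𝓞 F) ∉ 𝔔 := fun h => h𝔔R ((hmemR 𝔔 h𝔔).2 h)
    simpa [heF, nsmul_eq_mul] using
      inertiaDeg_mul_e_eq_zero K M F a b e r hr χ hM2 𝔔 h𝔔 h𝔔0 hr𝔔 hsp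
  have hs' : ∀ q : Ideal (𝓞 F), q.IsPrime → q ≠ ⊥ → q ∉ R → SplitsCompletely F M q →
      ψF q = 0 := by
    intro 𝔔 h𝔔 h𝔔0 h𝔔R hsp
    have hr𝔔 : ((r : ℕ) : 𝓞 F) ∉ 𝔔 := fun h => h𝔔R ((hmemR 𝔔 h𝔔).2 h)
    have h := inertiaDeg_mul_e_eq_zero K M F a b e r hr χ hM2 𝔔 h𝔔 h𝔔0 hr𝔔 hsp
    rcases mul_eq_zero.1 h with h | h
    · simp [hψF, nsmul_eq_mul, h]
    · have hq : (𝔔.under (𝓞 K)).IsPrime := Ideal.IsPrime.under (𝓞 K) 𝔔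
      have hq0 : 𝔔.under (𝓞 K) ≠ ⊥ := Ideal.under_ne_bot (𝓞 K) h𝔔0
      simp [hψF, hψe _ hq hq0 h]
  -- degree-one primes of `F` above `q₁`, `q₂`
  obtain ⟨𝔔₁, h𝔔₁, h𝔔₁0, hr𝔔₁, hu₁, hf₁⟩ :=
    exists_degree_one_prime K M F a b α β hF2 e r hr χ hM2 q₁ hq₁ hq₁0 hr₁ (by ring)
  obtain ⟨𝔔₂, h𝔔₂, h𝔔₂0, hr𝔔₂, hu₂, hf₂⟩ :=
    exists_degree_one_prime K M F a b α β hF2 e r hr χ hM2 q₂ hq₂ hq₂0 hr₂
      (by rw [hα_def, hβ_def]; linear_combination -hprop)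
  have key := secondInequality hp F M hζ hFM hunrF R hR eF ψF he he' hs hs' 𝔔₁ 𝔔₂
    ⟨h𝔔₁, h𝔔₁0, fun h => hr𝔔₁ ((hmemR 𝔔₁ h𝔔₁).1 h)⟩
    ⟨h𝔔₂, h𝔔₂0, fun h => hr𝔔₂ ((hmemR 𝔔₂ h𝔔₂).1 h)⟩
  simpa [heF, hψF, hu₁, hu₂, hf₁, hf₂] using key

end Fermat.Agent.S14.Crossing
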