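import Mathlib

/-!
# S14 / Crossing (T7, owner helper21): a surjective character `(ZMod r)ˣ → ZMod p` whose kernel is
the group of `p`-th powers (`r` prime, `p ∣ r - 1`).
-/

set_option autoImplicit false

namespace Fermat.Agent.S14.Crossing

theorem exists_char {p : ℕ} [Fact p.Prime] (r : ℕ) (hr : r.Prime) (hpr : p ∣ r - 1) :
    ∃ χ : (ZMod r)ˣ →* Multiplicative (ZMod p), Function.Surjective χ ∧
      ∀ u : (ZMod r)ˣ, χ u = 1 → ∃ w : (ZMod r)ˣ, u = w ^ p := by
  have : Fact r.Prime := ⟨hr⟩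
  have hcyc : IsCyclic (ZMod r)ˣ := ZMod.isCyclic_units_prime hr
  have hcard : Nat.card (ZMod r)ˣ = r - 1 := by
    rw [Nat.card_eq_fintype_card, ZMod.card_units]
  have hdvd : p ∣ Nat.card (ZMod r)ˣ := hcard ▸ hpr
  have hpos : 0 < r - 1 := Nat.sub_pos_of_lt hr.one_lt
  have : NeZero (Nat.card (ZMod r)ˣ) := ⟨by rw [hcard]; exact hpos.ne'⟩
  -- the isomorphism `ℤ/(r-1) ≃ (ℤ/r)ˣ`
  let e : Multiplicative (ZMod (Nat.card (ZMod r)ˣ)) ≃* (ZMod r)ˣ := zmodCyclicMulEquiv hcyc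
  -- reduction mod `p`
  let f : ZMod (Nat.card (ZMod r)ˣ) →+ ZMod p := (ZMod.castHom hdvd (ZMod p)).toAddMonoidHom
  have hf : Function.Surjective f := ZMod.castHom_surjective hdvd
  refine ⟨(AddMonoidHom.toMultiplicative f).comp e.symm.toMonoidHom, ?_, ?_⟩
  · intro y
    obtain ⟨k, hk⟩ := hf (Multiplicative.toAdd y)
    refine ⟨e (Multiplicative.ofAdd k), ?_⟩
    simp only [MonoidHom.coe_comp, Function.comp_apply, MulEquiv.toMonoidHom_eq_coe,
      MonoidHom.coe_coe, MulEquiv.symm_apply_apply, AddMonoidHom.toMultiplicative_apply_apply,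
      toAdd_ofAdd, hk, ofAdd_toAdd]
  · intro u hu
    set k : ZMod (Nat.card (ZMod r)ˣ) := Multiplicative.toAdd (e.symm u) with hkdef
    have hk0 : f k = 0 := by
      have : Multiplicative.ofAdd (f k) = 1 := hu
      simpa using this
    have hcast : ((k.val : ℕ) : ZMod p) = 0 := by
      have h1 : f k = ZMod.cast k := rfl
      rw [ZMod.natCast_val, ← h1, hk0]
    obtain ⟨m, hm⟩ := (ZMod.natCast_eq_zero_iff _ _).mp hcast
    have hk : k = p • (m : ZMod (Nat.card (ZMod r)ˣ)) := by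
      rw [← ZMod.natCast_zmod_val k, hm]
      simp [nsmul_eq_mul]
    refine ⟨e (Multiplicative.ofAdd (m : ZMod (Nat.card (ZMod r)ˣ))), ?_⟩
    rw [← map_pow, ← ofAdd_nsmul, ← hk, hkdef, ofAdd_toAdd, MulEquiv.apply_symm_apply]

end Fermat.Agent.S14.Crossing
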