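import Fermat.Agent.S14.Iface.Density
import Fermat.Agent.S14.Frob.API
import Fermat.Agent.S14.Kummer.API

/-!
# S14 / Crossing (T7, owner helper21): block [B] — choice of the auxiliary prime `r`

For `n₁ = ℓ₁ ^ f₁`, `n₂ = ℓ₂ ^ f₂` (`ℓ₁ ≠ ℓ₂` primes different from `p`, `0 < f_i < p`) and any
`d`, there is a prime `r ≡ 1 mod p`, `r ∉ {p, ℓ₁, ℓ₂}`, such that `n₁` is not a `p`-th power modulo
`r` while `n₂ ≡ n₁ ^ d · w ^ p mod r`.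

Proof: `K := ℚ(ζ_p)`, `b := n₂ · n₁ ^ (d (p - 1))`, `N' := K(b^{1/p})`, `M' := N'(n₁^{1/p})`
(Kummer API of helper16).  `b ∉ K^p` and `n₁ ∉ N'^p` (norms to `ℚ` + `ℓ`-adic valuations, using
`K ∩ N'^p = ⟨b⟩ K^p`).  `Iface/Density` gives a degree-one prime `P` of `N'`, of residue
characteristic `r ∉ {p, ℓ₁, ℓ₂}`, not split in `M'`.  `𝓞 N' ⧸ P = 𝔽_r` contains a primitive
`p`-th root of unity (`r ≡ 1 mod p`) and a `p`-th root of `b`; `n₁` is not a `p`-th power modulo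
`P` (else `P` would split in `M'`).
-/

set_option autoImplicit false

namespace Fermat.Agent.S14.Crossing

open NumberField
open scoped Pointwise

/-! ### Norms and valuations -/

/-- The norm to `ℚ` of a natural number. -/
theorem chooseR_norm_natCast (K : Type*) [Field K] [NumberField K] (n : ℕ) :
    Algebra.norm ℚ (n : K) = (n : ℚ) ^ Module.finrank ℚ K := by
  rw [← map_natCast (algebraMap ℚ K) n, Algebra.norm_algebraMap]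

/-- The `ℓ₂`-adic and `ℓ₁`-adic valuations of `b = ℓ₂ ^ f₂ * (ℓ₁ ^ f₁) ^ e`. -/
theorem chooseR_val_b (ℓ₁ ℓ₂ : ℕ) [Fact ℓ₁.Prime] [Fact ℓ₂.Prime] (h12 : ℓ₁ ≠ ℓ₂)
    (f₁ f₂ e : ℕ) :
    padicValRat ℓ₂ ((ℓ₂ ^ f₂ * (ℓ₁ ^ f₁) ^ e : ℕ) : ℚ) = (f₂ : ℤ) ∧
    padicValRat ℓ₁ ((ℓ₂ ^ f₂ * (ℓ₁ ^ f₁) ^ e : ℕ) : ℚ) = (e : ℤ) * (f₁ : ℤ) := by
  have h1 : ℓ₁ ≠ 0 := (Fact.out : ℓ₁.Prime).ne_zero
  have h2 : ℓ₂ ≠ 0 := (Fact.out : ℓ₂.Prime).ne_zero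
  constructor
  · rw [padicValRat.of_nat, padicValNat.mul (pow_ne_zero _ h2) (pow_ne_zero _ (pow_ne_zero _ h1)),
      padicValNat.prime_pow, padicValNat.pow, padicValNat.pow, padicValNat_primes (Ne.symm h12)]
    simp
  · rw [padicValRat.of_nat, padicValNat.mul (pow_ne_zero _ h2) (pow_ne_zero _ (pow_ne_zero _ h1)),
      padicValNat.pow, padicValNat.pow, padicValNat.prime_pow, padicValNat_primes h12]
    simp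

/-- Arithmetic core of "`b` is not a `p`-th power in `K`". -/
theorem chooseR_rat_one {p : ℕ} [Fact p.Prime] (ℓ₁ ℓ₂ : ℕ) [Fact ℓ₁.Prime] [Fact ℓ₂.Prime]
    (h12 : ℓ₁ ≠ ℓ₂) (f₁ f₂ e m : ℕ) (hm : 0 < m) (hm' : m < p) (hf₂ : 0 < f₂) (hf₂' : f₂ < p)
    (q : ℚ) (hq : q ^ p = (((ℓ₂ ^ f₂ * (ℓ₁ ^ f₁) ^ e : ℕ) : ℚ)) ^ m) : False := by
  have hpp : p.Prime := Fact.out
  have h := congrArg (padicValRat ℓ₂) hq
  rw [padicValRat.pow, padicValRat.pow, (chooseR_val_b ℓ₁ ℓ₂ h12 f₁ f₂ e).1] at h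
  have hdvd : (p : ℤ) ∣ ((m * f₂ : ℕ) : ℤ) := ⟨padicValRat ℓ₂ q, by push_cast; exact h.symm⟩
  rw [Int.natCast_dvd_natCast] at hdvd
  rcases (Nat.Prime.dvd_mul hpp).1 hdvd with h1 | h1
  · exact absurd (Nat.le_of_dvd hm h1) (by omega)
  · exact absurd (Nat.le_of_dvd hf₂ h1) (by omega)

/-- Arithmetic core of "`n₁` is not a `p`-th power in `N'`". -/
theorem chooseR_rat_two {p : ℕ} [Fact p.Prime] (ℓ₁ ℓ₂ : ℕ) [Fact ℓ₁.Prime] [Fact ℓ₂.Prime]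
    (h12 : ℓ₁ ≠ ℓ₂) (f₁ f₂ e m : ℕ) (hm : 0 < m) (hm' : m < p) (hf₁ : 0 < f₁) (hf₁' : f₁ < p)
    (hf₂ : 0 < f₂) (hf₂' : f₂ < p) (q : ℚ) (j : ℕ)
    (hq : (((ℓ₁ ^ f₁ : ℕ) : ℚ)) ^ m
      = ((((ℓ₂ ^ f₂ * (ℓ₁ ^ f₁) ^ e : ℕ) : ℚ)) ^ m) ^ j * q ^ p) : False := by
  have hpp : p.Prime := Fact.out
  have h1 : ℓ₁ ≠ 0 := (Fact.out : ℓ₁.Prime).ne_zero
  have h2 : ℓ₂ ≠ 0 := (Fact.out : ℓ₂.Prime).ne_zero
  have hb0 : (((ℓ₂ ^ f₂ * (ℓ₁ ^ f₁) ^ e : ℕ) : ℚ)) ≠ 0 :=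
    Nat.cast_ne_zero.2 (mul_ne_zero (pow_ne_zero _ h2) (pow_ne_zero _ (pow_ne_zero _ h1)))
  have hq0 : q ≠ 0 := by
    rintro rfl
    rw [zero_pow hpp.ne_zero, mul_zero] at hq
    exact (pow_ne_zero _ (Nat.cast_ne_zero.2 (pow_ne_zero _ h1))) hq
  have hval : ∀ (ℓ : ℕ) [Fact ℓ.Prime], (m : ℤ) * padicValRat ℓ ((ℓ₁ ^ f₁ : ℕ) : ℚ)
      = (j : ℤ) * ((m : ℤ) * padicValRat ℓ ((ℓ₂ ^ f₂ * (ℓ₁ ^ f₁) ^ e : ℕ) : ℚ))
        + (p : ℤ) * padicValRat ℓ q := by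
    intro ℓ _
    have h := congrArg (padicValRat ℓ) hq
    rw [padicValRat.mul (pow_ne_zero _ (pow_ne_zero _ hb0)) (pow_ne_zero _ hq0), padicValRat.pow,
      padicValRat.pow, padicValRat.pow, padicValRat.pow] at h
    exact h
  have e2 := hval ℓ₂
  have e1 := hval ℓ₁
  rw [(chooseR_val_b ℓ₁ ℓ₂ h12 f₁ f₂ e).1] at e2
  rw [(chooseR_val_b ℓ₁ ℓ₂ h12 f₁ f₂ e).2] at e1
  have hv21 : padicValRat ℓ₂ ((ℓ₁ ^ f₁ : ℕ) : ℚ) = 0 := by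
    rw [padicValRat.of_nat, padicValNat.pow, padicValNat_primes (Ne.symm h12)]
    simp
  have hv11 : padicValRat ℓ₁ ((ℓ₁ ^ f₁ : ℕ) : ℚ) = (f₁ : ℤ) := by
    rw [padicValRat.of_nat, padicValNat.prime_pow]
  rw [hv21] at e2
  rw [hv11] at e1
  have hd2 : (p : ℤ) ∣ ((j * (m * f₂) : ℕ) : ℤ) :=
    ⟨- padicValRat ℓ₂ q, by push_cast; linear_combination -e2⟩
  rw [Int.natCast_dvd_natCast] at hd2
  have hpj : p ∣ j := by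
    rcases (Nat.Prime.dvd_mul hpp).1 hd2 with h | h
    · exact h
    · exfalso
      rcases (Nat.Prime.dvd_mul hpp).1 h with h' | h'
      · exact absurd (Nat.le_of_dvd hm h') (by omega)
      · exact absurd (Nat.le_of_dvd hf₂ h') (by omega)
  obtain ⟨j', rfl⟩ := hpj
  have hd1 : (p : ℤ) ∣ ((m * f₁ : ℕ) : ℤ) :=
    ⟨(j' : ℤ) * ((m : ℤ) * ((e : ℤ) * (f₁ : ℤ))) + padicValRat ℓ₁ q, by
      push_cast at e1 ⊢; linear_combination e1⟩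
  rw [Int.natCast_dvd_natCast] at hd1
  rcases (Nat.Prime.dvd_mul hpp).1 hd1 with h | h
  · exact absurd (Nat.le_of_dvd hm h) (by omega)
  · exact absurd (Nat.le_of_dvd hf₁ h) (by omega)

/-- `b = ℓ₂ ^ f₂ * (ℓ₁ ^ f₁) ^ e` is not a `p`-th power in a number field `K` of degree
`m < p` over `ℚ`. -/
theorem chooseR_not_pow_K {p : ℕ} [Fact p.Prime] (K : Type*) [Field K] [NumberField K]
    (m : ℕ) (hm : 0 < m) (hm' : m < p) (hfin : Module.finrank ℚ K = m)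
    (ℓ₁ ℓ₂ : ℕ) [Fact ℓ₁.Prime] [Fact ℓ₂.Prime] (h12 : ℓ₁ ≠ ℓ₂)
    (f₁ f₂ e : ℕ) (hf₂ : 0 < f₂) (hf₂' : f₂ < p) :
    ¬ ∃ c : K, c ^ p = ((ℓ₂ ^ f₂ * (ℓ₁ ^ f₁) ^ e : ℕ) : K) := by
  rintro ⟨c, hc⟩
  have h := congrArg (Algebra.norm ℚ) hc
  rw [map_pow, chooseR_norm_natCast, hfin] at h
  exact chooseR_rat_one ℓ₁ ℓ₂ h12 f₁ f₂ e m hm hm' hf₂ hf₂' _ h

/-- `n₁ = ℓ₁ ^ f₁` is not a `p`-th power in `N = K(b^{1/p})`. -/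
theorem chooseR_not_pow_N {p : ℕ} [Fact p.Prime] (K N : Type*) [Field K] [NumberField K]
    [Field N] [NumberField N] [Algebra K N] [IsGalois K N]
    (hζ : ∃ ζ : K, IsPrimitiveRoot ζ p) (hdeg : Module.finrank K N = p)
    (m : ℕ) (hm : 0 < m) (hm' : m < p) (hfin : Module.finrank ℚ K = m)
    (ℓ₁ ℓ₂ : ℕ) [Fact ℓ₁.Prime] [Fact ℓ₂.Prime] (h12 : ℓ₁ ≠ ℓ₂)
    (f₁ f₂ e : ℕ) (hf₁ : 0 < f₁) (hf₁' : f₁ < p) (hf₂ : 0 < f₂) (hf₂' : f₂ < p)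
    (β : N) (hβ : β ^ p = algebraMap K N ((ℓ₂ ^ f₂ * (ℓ₁ ^ f₁) ^ e : ℕ) : K)) :
    ¬ ∃ γ : N, γ ^ p = ((ℓ₁ ^ f₁ : ℕ) : N) := by
  rintro ⟨γ, hγ⟩
  obtain ⟨j, c, hjc⟩ := Kummer.eq_pow_mul_pow_of_pow_eq K N hζ hdeg _
    (chooseR_not_pow_K K m hm hm' hfin ℓ₁ ℓ₂ h12 f₁ f₂ e hf₂ hf₂') β hβ
    ((ℓ₁ ^ f₁ : ℕ) : K) γ (by rw [hγ, map_natCast])
  have h := congrArg (Algebra.norm ℚ) hjc
  rw [map_mul, map_pow, map_pow, chooseR_norm_natCast, chooseR_norm_natCast, hfin] at h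
  exact chooseR_rat_two ℓ₁ ℓ₂ h12 f₁ f₂ e m hm hm' hf₁ hf₁' hf₂ hf₂' _ j h

/-! ### The residue field of a degree-one prime -/

/-- Reduction modulo a prime of prime norm `r`, with values in `ZMod r`. -/
theorem chooseR_residue_hom (N : Type*) [Field N] [NumberField N] (P : Ideal (𝓞 N)) (r : ℕ)
    (hr : r.Prime) (hP : Ideal.absNorm P = r) :
    ∃ φ : 𝓞 N →+* ZMod r, ∀ x, φ x = 0 ↔ x ∈ P := by
  have hcard : Nat.card (𝓞 N ⧸ P) = r := by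
    rw [← hP, Ideal.absNorm_apply, Submodule.cardQuot_apply]
  have : Finite (𝓞 N ⧸ P) := Nat.finite_of_card_ne_zero (by rw [hcard]; exact hr.ne_zero)
  let _ : Fintype (𝓞 N ⧸ P) := Fintype.ofFinite _
  have hcard' : Fintype.card (𝓞 N ⧸ P) = r := by rw [← Nat.card_eq_fintype_card, hcard]
  refine ⟨((ZMod.ringEquivOfPrime (𝓞 N ⧸ P) hr hcard').symm : (𝓞 N ⧸ P) →+* ZMod r).comp
    (Ideal.Quotient.mk P), fun x => ?_⟩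
  rw [RingHom.comp_apply, ← Ideal.Quotient.eq_zero_iff_mem]
  exact map_eq_zero_iff _ (ZMod.ringEquivOfPrime (𝓞 N ⧸ P) hr hcard').symm.injective

/-- A ring with a primitive `p`-th root of unity mapping to `ZMod r` (`r ≠ p`): `p ∣ r - 1`. -/
theorem chooseR_dvd_sub_one {p r : ℕ} [Fact p.Prime] [Fact r.Prime] {R : Type*} [CommRing R]
    [IsDomain R] (φ : R →+* ZMod r) (ζ : R) (hζ : IsPrimitiveRoot ζ p)
    (hp0 : ((p : ℕ) : ZMod r) ≠ 0) : p ∣ r - 1 := by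
  have hpp : p.Prime := Fact.out
  have hsum : ∑ i ∈ Finset.range p, ζ ^ i = 0 := hζ.geom_sum_eq_zero hpp.one_lt
  have hφζ : φ ζ ≠ 1 := by
    intro h1
    have := congrArg φ hsum
    rw [map_sum] at this
    simp only [map_pow, h1, one_pow, Finset.sum_const, Finset.card_range, map_zero,
      nsmul_eq_mul, mul_one] at this
    exact hp0 this
  have hφζp : φ ζ ^ p = 1 := by rw [← map_pow, hζ.pow_eq_one, map_one]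
  have hord : orderOf (φ ζ) = p := orderOf_eq_prime hφζp hφζ
  have hne : φ ζ ≠ 0 := by
    intro h0
    rw [h0, zero_pow hpp.ne_zero] at hφζp
    exact zero_ne_one hφζp
  have := ZMod.pow_card_sub_one_eq_one hne
  rw [← hord]
  exact orderOf_dvd_of_pow_eq_one this

/-- From a `p`-th root of `n₂ * n₁ ^ (d * (p - 1))`: `n₂ ≡ n₁ ^ d * w ^ p` in `ZMod r`. -/
theorem chooseR_exists_pow {p r : ℕ} [Fact p.Prime] [Fact r.Prime] {R : Type*} [CommRing R]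
    (φ : R →+* ZMod r) (n₁ n₂ d : ℕ) (β : R)
    (hβ : β ^ p = ((n₂ * n₁ ^ (d * (p - 1)) : ℕ) : R)) (hn₁ : ((n₁ : ℕ) : ZMod r) ≠ 0) :
    ∃ w : ZMod r, ((n₂ : ℕ) : ZMod r) = ((n₁ : ℕ) : ZMod r) ^ d * w ^ p := by
  have hpp : p.Prime := Fact.out
  have hu : ((n₁ : ℕ) : ZMod r) ^ d ≠ 0 := pow_ne_zero _ hn₁
  have h1 : φ β ^ p = (n₂ : ZMod r) * (((n₁ : ℕ) : ZMod r) ^ d) ^ (p - 1) := by
    rw [← map_pow, hβ, map_natCast]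
    push_cast
    rw [pow_mul]
  have h2 : ((n₁ : ℕ) : ZMod r) ^ d * (((n₁ : ℕ) : ZMod r) ^ d) ^ (p - 1)
      = (((n₁ : ℕ) : ZMod r) ^ d) ^ p := mul_pow_sub_one hpp.ne_zero _
  have hup : (((n₁ : ℕ) : ZMod r) ^ d) ^ p ≠ 0 := pow_ne_zero _ hu
  refine ⟨φ β * (((n₁ : ℕ) : ZMod r) ^ d)⁻¹, ?_⟩
  rw [mul_pow, h1, inv_pow, eq_comm]
  calc ((n₁ : ℕ) : ZMod r) ^ d * ((n₂ : ZMod r) * (((n₁ : ℕ) : ZMod r) ^ d) ^ (p - 1)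
        * ((((n₁ : ℕ) : ZMod r) ^ d) ^ p)⁻¹)
      = (n₂ : ZMod r) * (((n₁ : ℕ) : ZMod r) ^ d * (((n₁ : ℕ) : ZMod r) ^ d) ^ (p - 1))
        * ((((n₁ : ℕ) : ZMod r) ^ d) ^ p)⁻¹ := by ring
    _ = (n₂ : ZMod r) * (((n₁ : ℕ) : ZMod r) ^ d) ^ p * ((((n₁ : ℕ) : ZMod r) ^ d) ^ p)⁻¹ := by
        rw [h2]
    _ = (n₂ : ZMod r) := mul_inv_cancel_right₀ hup _

/-! ### The main statement -/

theorem exists_prime_r {p : ℕ} [Fact p.Prime] (hp : p ≠ 2)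
    (ℓ₁ ℓ₂ : ℕ) (hℓ₁ : ℓ₁.Prime) (hℓ₂ : ℓ₂.Prime) (h12 : ℓ₁ ≠ ℓ₂) (h1p : ℓ₁ ≠ p) (h2p : ℓ₂ ≠ p)
    (f₁ f₂ : ℕ) (hf₁ : 0 < f₁) (hf₁' : f₁ < p) (hf₂ : 0 < f₂) (hf₂' : f₂ < p) (d : ℕ) :
    ∃ r : ℕ, r.Prime ∧ r ≠ p ∧ r ≠ ℓ₁ ∧ r ≠ ℓ₂ ∧ p ∣ r - 1 ∧
      (¬ ∃ w : ZMod r, w ^ p = ((ℓ₁ ^ f₁ : ℕ) : ZMod r)) ∧
      ∃ w : ZMod r, ((ℓ₂ ^ f₂ : ℕ) : ZMod r) = ((ℓ₁ ^ f₁ : ℕ) : ZMod r) ^ d * w ^ p := by
  -- the hypotheses `hp`, `h1p`, `h2p` are not needed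
  have _ := hp
  have _ := h1p
  have _ := h2p
  have hpp : p.Prime := Fact.out
  have : Fact ℓ₁.Prime := ⟨hℓ₁⟩
  have : Fact ℓ₂.Prime := ⟨hℓ₂⟩
  have : NeZero p := ⟨hpp.ne_zero⟩
  -- the cyclotomic field `K`
  have : IsCyclotomicExtension {p} ℚ (CyclotomicField p ℚ) :=
    CyclotomicField.isCyclotomicExtension p ℚ
  have hζK : ∃ ζ : CyclotomicField p ℚ, IsPrimitiveRoot ζ p :=
    ⟨IsCyclotomicExtension.zeta p ℚ (CyclotomicField p ℚ),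
      IsCyclotomicExtension.zeta_spec p ℚ (CyclotomicField p ℚ)⟩
  have hfin : Module.finrank ℚ (CyclotomicField p ℚ) = p - 1 := by
    rw [IsCyclotomicExtension.finrank (CyclotomicField p ℚ)
      (Polynomial.cyclotomic.irreducible_rat hpp.pos), Nat.totient_prime hpp]
  have hm : 0 < p - 1 := Nat.sub_pos_of_lt hpp.one_lt
  have hm' : p - 1 < p := Nat.sub_lt hpp.pos Nat.one_pos
  -- `N' = K(b^{1/p})`
  have hbK := chooseR_not_pow_K (p := p) (CyclotomicField p ℚ) (p - 1) hm hm' hfin ℓ₁ ℓ₂ h12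
    f₁ f₂ (d * (p - 1)) hf₂ hf₂'
  obtain ⟨N', _, _, _, _, hdegN, β, hβ⟩ :=
    Kummer.exists_kummer_ext (CyclotomicField p ℚ) hζK _ hbK
  have hζN : ∃ ζ : N', IsPrimitiveRoot ζ p := by
    obtain ⟨ζ, hζ⟩ := hζK
    exact ⟨algebraMap _ N' ζ, hζ.map_of_injective (algebraMap (CyclotomicField p ℚ) N').injective⟩
  -- `M' = N'(n₁^{1/p})`
  have hn₁N := chooseR_not_pow_N (p := p) (CyclotomicField p ℚ) N' hζK hdegN (p - 1) hm hm' hfin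
    ℓ₁ ℓ₂ h12 f₁ f₂ (d * (p - 1)) hf₁ hf₁' hf₂ hf₂' β hβ
  obtain ⟨M', _, _, _, _, hdegM, α, hα⟩ := Kummer.exists_kummer_ext N' hζN _ hn₁N
  -- the prime `P`
  obtain ⟨P, hP, hr, hrS, hnsplit⟩ := exists_prime_not_splitsCompletely N' M'
    (by rw [hdegM]; exact hpp.one_lt) ({p, ℓ₁, ℓ₂} : Finset ℕ)
  obtain ⟨r, hrP⟩ : ∃ r : ℕ, Ideal.absNorm P = r := ⟨_, rfl⟩
  rw [hrP] at hr hrS
  have : Fact r.Prime := ⟨hr⟩
  obtain ⟨φ, hφ⟩ := chooseR_residue_hom N' P r hr hrP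
  have hrp : r ≠ p := by
    intro h
    exact hrS (by simp [h])
  have hr1 : r ≠ ℓ₁ := by
    intro h
    exact hrS (by simp [h])
  have hr2 : r ≠ ℓ₂ := by
    intro h
    exact hrS (by simp [h])
  have hp0 : ((p : ℕ) : ZMod r) ≠ 0 := by
    rw [Ne, ZMod.natCast_eq_zero_iff]
    intro h
    exact hrp ((Nat.prime_dvd_prime_iff_eq hr hpp).1 h)
  have hℓ₁0 : ((ℓ₁ : ℕ) : ZMod r) ≠ 0 := by
    rw [Ne, ZMod.natCast_eq_zero_iff]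
    intro h
    exact hr1 ((Nat.prime_dvd_prime_iff_eq hr hℓ₁).1 h)
  have hn₁0 : ((ℓ₁ ^ f₁ : ℕ) : ZMod r) ≠ 0 := by
    rw [Nat.cast_pow]
    exact pow_ne_zero _ hℓ₁0
  refine ⟨r, hr, hrp, hr1, hr2, ?_, ?_, ?_⟩
  · -- `p ∣ r - 1`
    obtain ⟨ζ, hζ⟩ := Kummer.exists_integer_root hζN
    exact chooseR_dvd_sub_one φ ζ hζ hp0
  · -- `n₁` is not a `p`-th power modulo `r`
    rintro ⟨w, hw⟩
    apply hnsplit
    have hx : (((ℓ₁ ^ f₁ : ℕ) : 𝓞 N') : N') = ((ℓ₁ ^ f₁ : ℕ) : N') :=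
      map_natCast (algebraMap (𝓞 N') N') _
    refine Kummer.splitsCompletely_of_pow_residue N' M' hζN hdegM ((ℓ₁ ^ f₁ : ℕ) : 𝓞 N') ?_ α ?_
      P hP ?_ ?_ ?_ ((w.val : ℕ) : 𝓞 N') ?_
    · rw [hx]
      exact hn₁N
    · rw [hx]
      exact hα
    · intro h
      rw [h, Ideal.absNorm_bot] at hrP
      exact hr.ne_zero hrP.symm
    · rw [← hφ, map_natCast]
      exact hp0
    · rw [← hφ, map_natCast]
      exact hn₁0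
    · rw [← hφ, map_sub, map_pow, map_natCast, map_natCast, ZMod.natCast_zmod_val, hw, sub_self]
  · -- `n₂ ≡ n₁ ^ d * w ^ p`
    have hβint : IsIntegral ℤ β := by
      refine IsIntegral.of_pow hpp.pos ?_
      rw [hβ, map_natCast]
      exact isIntegral_natCast _
    obtain ⟨β', hβ'⟩ := (IsIntegralClosure.isIntegral_iff (A := 𝓞 N')).1 hβint
    have hβ'p : β' ^ p = ((ℓ₂ ^ f₂ * (ℓ₁ ^ f₁) ^ (d * (p - 1)) : ℕ) : 𝓞 N') := by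
      apply RingOfIntegers.coe_injective
      rw [map_pow, hβ', hβ, map_natCast, map_natCast]
    exact chooseR_exists_pow φ (ℓ₁ ^ f₁) (ℓ₂ ^ f₂) d β' hβ'p hn₁0
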