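import Fermat.Agent.S14.Frob.API
import Fermat.Agent.S14.Crossing.Field.OmMain
import Fermat.Agent.S14.Crossing.Field.Descent
import Fermat.Agent.S14.Crossing.Field.DescendHom

/-!
# S14 / Crossing (T7, owner helper21): block [C] — the crossing field `M = L · L''`

`K = ℚ(ζ_p)`, `L/K` cyclic of degree `p`, unramified everywhere, `σ ≠ 1` a generator of `Gal(L/K)`,
`e q` the Frobenius exponent of `q` (`σ ^ e q` is the Frobenius of `L/K` at `q`).
`r ≠ p` a prime and `χ : (ZMod r)ˣ →* Multiplicative (ZMod p)` a surjective character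
(so `r ≡ 1 mod p`).  `L''` := the subfield of `K(ζ_r)` cut out by `χ`; `M := L · L'' ⊆ Ω := L(ζ_r)`.

`exists_crossing_field`: there is a number field `M`, Galois over `K`, with two characters
`a b : Gal(M/K) → ZMod p` (written multiplicatively) such that
* (M1) `(a, b) : Gal(M/K) → (ZMod p)²` is bijective;
* (M2) at every prime `Q ∤ r` of `M`: `M/K` is unramified at `Q`, and every Frobenius `g` at `Q`
  has `a g = e (Q ∩ K)` and `b g = χ (N(Q ∩ K) mod r)`;
* (M3) at every prime `Q ∣ r` of `M`: `a` is trivial on the inertia group of `Q`, and `b` is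
  nontrivial on it.

Construction (block owner: helper7): `Ω := CyclotomicField r L` viewed as a `K`-algebra,
`G := Gal(Ω/K)`, `ã : G → ZMod p` (restriction to `L`, `σ`-logarithm), `c̃ : G → (ZMod r)ˣ`
(cyclotomic character), `B := ker ã ⊓ ker (χ ∘ c̃)`, `M := fixedField B`, `a, b` induced by
`ã`, `χ ∘ c̃`.
-/

set_option autoImplicit false

namespace Fermat.Agent.S14.Crossing

open NumberField
open scoped Pointwise

theorem exists_crossing_field {p : ℕ} [Fact p.Prime] (hp : p ≠ 2)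
    (K L : Type) [Field K] [NumberField K] [Field L] [NumberField L] [Algebra K L]
    [IsCyclotomicExtension {p} ℚ K] [IsGalois K L]
    (hdeg : Module.finrank K L = p)
    (hunr : UnramifiedEverywhere K L)
    (σ : L ≃ₐ[K] L) (hσ : σ ≠ 1) (e : Ideal (𝓞 K) → ZMod p)
    (hfrob : ∀ q : Ideal (𝓞 K), q.IsPrime → q ≠ ⊥ →
      ∀ Q : Ideal (𝓞 L), Q.IsPrime → Q.LiesOver q →
        ∀ x : 𝓞 L, (σ ^ (e q).val) • x - x ^ Nat.card (𝓞 K ⧸ q) ∈ Q)
    (r : ℕ) (hr : r.Prime) (hrp : r ≠ p)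
    (χ : (ZMod r)ˣ →* Multiplicative (ZMod p)) (hχ : Function.Surjective χ) :
    ∃ (M : Type) (_ : Field M) (_ : NumberField M) (_ : Algebra K M) (_ : IsGalois K M)
      (a b : (M ≃ₐ[K] M) →* Multiplicative (ZMod p)),
      (∀ g : M ≃ₐ[K] M, a g = 1 → b g = 1 → g = 1) ∧
      (∀ u v : Multiplicative (ZMod p), ∃ g : M ≃ₐ[K] M, a g = u ∧ b g = v) ∧
      (∀ Q : Ideal (𝓞 M), Q.IsPrime → Q ≠ ⊥ → ((r : ℕ) : 𝓞 M) ∉ Q →
        UnramifiedAt K M Q ∧
        ∀ g : M ≃ₐ[K] M, IsArithFrobAt (𝓞 K) g Q →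
          a g = Multiplicative.ofAdd (e (Q.under (𝓞 K))) ∧
          ∀ u : (ZMod r)ˣ, (u : ZMod r) = (Nat.card (𝓞 K ⧸ Q.under (𝓞 K)) : ZMod r) →
            b g = χ u) ∧
      (∀ Q : Ideal (𝓞 M), Q.IsPrime → ((r : ℕ) : 𝓞 M) ∈ Q →
        (∀ g ∈ Q.inertia (M ≃ₐ[K] M), a g = 1) ∧
        ∃ g ∈ Q.inertia (M ≃ₐ[K] M), b g ≠ 1) := by
  haveI : NeZero r := ⟨hr.ne_zero⟩
  haveI : IsGalois K (CyclotomicField r L) := isGalois_Om K L r
  obtain ⟨l, -, hlσ⟩ := exists_log K L hdeg σ hσ
  obtain ⟨hS, hU, hR⟩ := omega_main K L r hunr hdeg σ hσ e hfrob hr hrp χ hχ l hlσ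
  -- the two characters of `Gal(Ω/K)` and the subgroup `B`
  let B : Subgroup (CyclotomicField r L ≃ₐ[K] CyclotomicField r L) :=
    (l.comp (AlgEquiv.restrictNormalHom L)).ker ⊓ (χ.comp (cyc K L r)).ker
  haveI : B.Normal := Subgroup.normal_inf_normal _ _
  haveI : IsGalois K (IntermediateField.fixedField B) := isGalois_fixedField B
  have hfix : (IntermediateField.fixedField B).fixingSubgroup = B :=
    fixingSubgroup_fixedField_eq B
  obtain ⟨a, ha⟩ := exists_descend_hom (IntermediateField.fixedField B)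
    (l.comp (AlgEquiv.restrictNormalHom L)) (by rw [hfix]; exact inf_le_left)
  obtain ⟨b, hb⟩ := exists_descend_hom (IntermediateField.fixedField B)
    (χ.comp (cyc K L r)) (by rw [hfix]; exact inf_le_right)
  obtain ⟨hM2, hM3⟩ := descent K (IntermediateField.fixedField B) (CyclotomicField r L) r
    hr.ne_zero e χ _ _ a b ha hb hU hR
  refine ⟨IntermediateField.fixedField B, inferInstance, inferInstance, inferInstance,
    inferInstance, a, b, ?_, ?_, hM2, hM3⟩
  · intro g hag hbg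
    obtain ⟨g', rfl⟩ := AlgEquiv.restrictNormalHom_surjective (F := K)
      (K₁ := IntermediateField.fixedField B) (CyclotomicField r L) g
    rw [ha] at hag
    rw [hb] at hbg
    exact restrictNormalHom_eq_one_of_mem B g' ⟨hag, hbg⟩
  · intro u v
    obtain ⟨g', h1, h2⟩ := hS u v
    exact ⟨AlgEquiv.restrictNormalHom (IntermediateField.fixedField B) g',
      by rw [ha]; exact h1, by rw [hb]; exact h2⟩

end Fermat.Agent.S14.Crossing
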