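import Fermat.Agent.S14.Frob.API

/-!
# S14 / Crossing (T7, owner helper21): block [E1] — the norm character `q ↦ χ(N q mod r)`

For a character `χ : (ZMod r)ˣ →* Multiplicative (ZMod p)` and a number field `K`, the
`ZMod p`-valued function `normChar K χ` on ideals of `𝓞 K` sends `q` to `χ (N q mod r)`
(`N q = Nat.card (𝓞 K ⧸ q)`; junk value when `N q` is not prime to `r`).
`principalSum_normChar`: on a principal ideal `(z)` prime to `r` its `principalSum` is
`χ (absNorm (z) mod r)`.
-/

set_option autoImplicit false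

namespace Fermat.Agent.S14.Crossing

open NumberField
open scoped Pointwise

/-- The unit of `ZMod r` attached to a natural number `n` (junk value `1` if `n` is not coprime
to `r`). -/
noncomputable def unitOfNat (r n : ℕ) : (ZMod r)ˣ :=
  if h : Nat.Coprime n r then ZMod.unitOfCoprime n h else 1

theorem coe_unitOfNat (r n : ℕ) (h : Nat.Coprime n r) :
    ((unitOfNat r n : (ZMod r)ˣ) : ZMod r) = (n : ZMod r) := by
  rw [unitOfNat, dif_pos h, ZMod.coe_unitOfCoprime]

theorem unitOfNat_mul (r m n : ℕ) (hm : Nat.Coprime m r) (hn : Nat.Coprime n r) :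
    unitOfNat r (m * n) = unitOfNat r m * unitOfNat r n := by
  apply Units.ext
  rw [Units.val_mul, coe_unitOfNat r m hm, coe_unitOfNat r n hn,
    coe_unitOfNat r (m * n) (Nat.Coprime.mul_left hm hn), Nat.cast_mul]

/-- `q ↦ χ (N q mod r)`, as a `ZMod p`-valued function on the ideals of `𝓞 K`. -/
noncomputable def normChar (K : Type*) [Field K] [NumberField K] {r p : ℕ}
    (χ : (ZMod r)ˣ →* Multiplicative (ZMod p)) (q : Ideal (𝓞 K)) : ZMod p :=
  Multiplicative.toAdd (χ (unitOfNat r (Nat.card (𝓞 K ⧸ q))))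

/-- A nonzero prime `q` of `𝓞 K` not containing the prime number `r` has norm prime to `r`. -/
theorem coprime_card_quot (K : Type*) [Field K] [NumberField K] (r : ℕ) (hr : r.Prime)
    (q : Ideal (𝓞 K)) (hq : q.IsPrime) (hq0 : q ≠ ⊥) (hrq : ((r : ℕ) : 𝓞 K) ∉ q) :
    Nat.Coprime (Nat.card (𝓞 K ⧸ q)) r := by
  rw [Nat.coprime_comm, Nat.Prime.coprime_iff_not_dvd hr]
  intro hdvd
  have : q.IsPrime := hq
  have : Finite (𝓞 K ⧸ q) := Ideal.finiteQuotientOfFreeOfNeBot q hq0
  have : Fact r.Prime := ⟨hr⟩
  obtain ⟨x, hx⟩ := exists_prime_addOrderOf_dvd_card' (G := 𝓞 K ⧸ q) r hdvd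
  have hx0 : x ≠ 0 := by
    rintro rfl
    rw [addOrderOf_zero] at hx
    exact hr.one_lt.ne hx
  have h1 : r • x = 0 := by
    rw [← hx]
    exact addOrderOf_nsmul_eq_zero x
  rw [nsmul_eq_mul] at h1
  rcases mul_eq_zero.mp h1 with h | h
  · apply hrq
    rw [← Ideal.Quotient.eq_zero_iff_mem]
    simpa using h
  · exact hx0 h

/-- [E1] On a principal ideal `(z)` prime to `r`, the `principalSum` of the norm character is
`χ (absNorm (z) mod r)`. -/
theorem principalSum_normChar (K : Type*) [Field K] [NumberField K] {r p : ℕ} (hr : r.Prime)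
    (χ : (ZMod r)ˣ →* Multiplicative (ZMod p)) (z : 𝓞 K) (hz0 : z ≠ 0)
    (hz : ∀ 𝔯 : Ideal (𝓞 K), 𝔯.IsPrime → ((r : ℕ) : 𝓞 K) ∈ 𝔯 → z ∉ 𝔯) :
    Nat.Coprime (Ideal.absNorm (Ideal.span {z})) r ∧
    principalSum K (normChar K χ) z =
      Multiplicative.toAdd (χ (unitOfNat r (Ideal.absNorm (Ideal.span {z})))) := by
  -- the general statement on multisets of primes not containing `r`
  have key : ∀ t : Multiset (Ideal (𝓞 K)),
      (∀ q ∈ t, q.IsPrime ∧ q ≠ ⊥ ∧ ((r : ℕ) : 𝓞 K) ∉ q) →
      Nat.Coprime (Ideal.absNorm t.prod) r ∧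
        (t.map (normChar K χ)).sum =
          Multiplicative.toAdd (χ (unitOfNat r (Ideal.absNorm t.prod))) := by
    intro t
    induction t using Multiset.induction_on with
    | empty =>
      intro _
      have h1 : unitOfNat r 1 = 1 := by
        apply Units.ext
        rw [coe_unitOfNat r 1 (Nat.coprime_one_left r), Nat.cast_one, Units.val_one]
      refine ⟨?_, ?_⟩
      · rw [Multiset.prod_zero, Ideal.one_eq_top, Ideal.absNorm_top]
        exact Nat.coprime_one_left r
      · rw [Multiset.prod_zero, Ideal.one_eq_top, Ideal.absNorm_top, h1, map_one,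
          Multiset.map_zero, Multiset.sum_zero, toAdd_one]
    | cons a t ih =>
      intro h
      obtain ⟨ha, ha0, har⟩ := h a (Multiset.mem_cons_self a t)
      obtain ⟨ih1, ih2⟩ := ih (fun q hq => h q (Multiset.mem_cons_of_mem hq))
      have hcard : Nat.card (𝓞 K ⧸ a) = Ideal.absNorm a := by
        rw [Ideal.absNorm_apply, Submodule.cardQuot_apply]
      have hcop : Nat.Coprime (Ideal.absNorm a) r := by
        rw [← hcard]
        exact coprime_card_quot K r hr a ha ha0 har
      have hn : normChar K χ a =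
          Multiplicative.toAdd (χ (unitOfNat r (Ideal.absNorm a))) := by
        unfold normChar
        rw [hcard]
      refine ⟨?_, ?_⟩
      · rw [Multiset.prod_cons, map_mul]
        exact Nat.Coprime.mul_left hcop ih1
      · rw [Multiset.map_cons, Multiset.sum_cons, ih2, hn, Multiset.prod_cons, map_mul,
          unitOfNat_mul r _ _ hcop ih1, map_mul, toAdd_mul]
  have hspan : Ideal.span {z} ≠ ⊥ := by
    simpa using hz0
  have hprod : (UniqueFactorizationMonoid.normalizedFactors (Ideal.span {z})).prod =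
      Ideal.span {z} :=
    Ideal.prod_normalizedFactors_eq_self hspan
  have hmain := key (UniqueFactorizationMonoid.normalizedFactors (Ideal.span {z})) (by
    intro q hq
    have hqp : Prime q := UniqueFactorizationMonoid.prime_of_normalized_factor q hq
    have hqprime : q.IsPrime := Ideal.isPrime_of_prime hqp
    have hzq : z ∈ q := by
      have hle : Ideal.span {z} ≤ q :=
        Ideal.le_of_dvd (UniqueFactorizationMonoid.dvd_of_mem_normalizedFactors hq)
      exact hle (Ideal.subset_span (Set.mem_singleton z))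
    exact ⟨hqprime, hqp.ne_zero, fun h => hz q hqprime h hzq⟩)
  rw [hprod] at hmain
  exact hmain

end Fermat.Agent.S14.Crossing
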