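import Fermat.Agent.S14.Iface.FirstInequality
import Fermat.Agent.S14.Iface.Density
import Fermat.Agent.S14.Crossing.Basic
import Fermat.Agent.S14.Crossing.Char
import Fermat.Agent.S14.Crossing.ChooseR
import Fermat.Agent.S14.Crossing.Field
import Fermat.Agent.S14.Crossing.Apply

/-!
# S14 / Crossing (T7, owner helper21): block [A] — the reduction and `Crossing.main`

`main` (= the statement of `Iface/Reciprocity`): by `firstInequality` with `R = ∅` there is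
`ψ ≠ 0` killing split primes and principal ideals; `crossing` shows `e q₁ * ψ q₂ = e q₂ * ψ q₁`
for all primes, so `e = c • ψ` on primes and `e` kills principal ideals.
-/

set_option autoImplicit false

namespace Fermat.Agent.S14.Crossing

open NumberField
open scoped Pointwise

/-- The crossing identity for two non-split primes of different residue characteristics. -/
theorem crossing_distinct {p : ℕ} [Fact p.Prime] (hp : p ≠ 2)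
    (K L : Type) [Field K] [NumberField K] [Field L] [NumberField L] [Algebra K L]
    [IsCyclotomicExtension {p} ℚ K] [IsGalois K L]
    (hdeg : Module.finrank K L = p)
    (hunr : UnramifiedEverywhere K L)
    (hsplit : ∀ q : Ideal (𝓞 K), q.IsPrime → ((p : ℕ) : 𝓞 K) ∈ q → SplitsCompletely K L q)
    (σ : L ≃ₐ[K] L) (hσ : σ ≠ 1) (e : Ideal (𝓞 K) → ZMod p)
    (hfrob : ∀ q : Ideal (𝓞 K), q.IsPrime → q ≠ ⊥ →
      ∀ Q : Ideal (𝓞 L), Q.IsPrime → Q.LiesOver q →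
        ∀ x : 𝓞 L, (σ ^ (e q).val) • x - x ^ Nat.card (𝓞 K ⧸ q) ∈ Q)
    (ψ : Ideal (𝓞 K) → ZMod p)
    (hψp : ∀ y : 𝓞 K, y ≠ 0 → principalSum K ψ y = 0)
    (hψs : ∀ q : Ideal (𝓞 K), q.IsPrime → q ≠ ⊥ → SplitsCompletely K L q → ψ q = 0)
    (q₁ q₂ : Ideal (𝓞 K)) (hq₁ : q₁.IsPrime) (hq₁0 : q₁ ≠ ⊥) (hq₂ : q₂.IsPrime) (hq₂0 : q₂ ≠ ⊥)
    (he₁ : e q₁ ≠ 0) (he₂ : e q₂ ≠ 0)
    (ℓ₁ ℓ₂ : ℕ) (hℓ₁ : ℓ₁.Prime) (hℓ₂ : ℓ₂.Prime) (h12 : ℓ₁ ≠ ℓ₂)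
    (hℓq₁ : ((ℓ₁ : ℕ) : 𝓞 K) ∈ q₁) (hℓq₂ : ((ℓ₂ : ℕ) : 𝓞 K) ∈ q₂) :
    e q₁ * ψ q₂ = e q₂ * ψ q₁ := by
  have he0 : ∀ q : Ideal (𝓞 K), q.IsPrime → q ≠ ⊥ → (e q = 0 ↔ SplitsCompletely K L q) :=
    fun q hq hq0 => Frob.frobExponent_eq_zero_iff K L hdeg hunr σ hσ q hq hq0 (e q)
      (hfrob q hq hq0)
  have h1p : ℓ₁ ≠ p := by
    rintro rfl
    exact he₁ ((he0 q₁ hq₁ hq₁0).2 (hsplit q₁ hq₁ hℓq₁))
  have h2p : ℓ₂ ≠ p := by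
    rintro rfl
    exact he₂ ((he0 q₂ hq₂ hq₂0).2 (hsplit q₂ hq₂ hℓq₂))
  obtain ⟨f₁, hf₁, hf₁', hN₁⟩ := card_quot_eq_prime_pow (p := p) K q₁ hq₁ ℓ₁ hℓ₁ hℓq₁
  obtain ⟨f₂, hf₂, hf₂', hN₂⟩ := card_quot_eq_prime_pow (p := p) K q₂ hq₂ ℓ₂ hℓ₂ hℓq₂
  -- the proportionality factor
  set d : ℕ := (e q₂ / e q₁).val with hd_def
  have hd : (d : ZMod p) * e q₁ = e q₂ := by
    rw [hd_def, ZMod.natCast_zmod_val, div_mul_cancel₀ _ he₁]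
  obtain ⟨r, hr, hrp, hrℓ₁, hrℓ₂, hpr, hnot, w, hw⟩ :=
    exists_prime_r hp ℓ₁ ℓ₂ hℓ₁ hℓ₂ h12 h1p h2p f₁ f₂ hf₁ hf₁' hf₂ hf₂' d
  obtain ⟨χ, hχ, hχker⟩ := exists_char (p := p) r hr hpr
  have hr₁ : ((r : ℕ) : 𝓞 K) ∉ q₁ := natCast_not_mem_of_ne K q₁ hq₁ ℓ₁ r hℓ₁ hr hrℓ₁ hℓq₁
  have hr₂ : ((r : ℕ) : 𝓞 K) ∉ q₂ := natCast_not_mem_of_ne K q₂ hq₂ ℓ₂ r hℓ₂ hr hrℓ₂ hℓq₂
  have hc₁ : Nat.Coprime (ℓ₁ ^ f₁) r := by
    rw [← hN₁]; exact coprime_card_quot K r hr q₁ hq₁ hq₁0 hr₁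
  have hc₂ : Nat.Coprime (ℓ₂ ^ f₂) r := by
    rw [← hN₂]; exact coprime_card_quot K r hr q₂ hq₂ hq₂0 hr₂
  haveI : Fact r.Prime := ⟨hr⟩
  have hχ₁ : normChar K χ q₁ ≠ 0 := by
    intro h0
    have h1 : χ (unitOfNat r (ℓ₁ ^ f₁)) = 1 := by
      have : Multiplicative.toAdd (χ (unitOfNat r (ℓ₁ ^ f₁))) = 0 := by
        simpa [normChar, hN₁] using h0
      exact Multiplicative.toAdd.injective this
    obtain ⟨v, hv⟩ := hχker _ h1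
    apply hnot
    refine ⟨(v : ZMod r), ?_⟩
    rw [← coe_unitOfNat r (ℓ₁ ^ f₁) hc₁, hv]
    simp
  have hχ₂ : normChar K χ q₂ = (d : ZMod p) * normChar K χ q₁ := by
    have hw0 : w ≠ 0 := by
      rintro rfl
      have hpz : (0 : ZMod r) ^ p = 0 := zero_pow (Fact.out : p.Prime).ne_zero
      rw [hpz, mul_zero] at hw
      have hu := (ZMod.unitOfCoprime _ hc₂).ne_zero
      rw [ZMod.coe_unitOfCoprime] at hu
      exact hu hw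
    have hu : unitOfNat r (ℓ₂ ^ f₂) = unitOfNat r (ℓ₁ ^ f₁) ^ d * (Units.mk0 w hw0) ^ p := by
      apply Units.ext
      rw [coe_unitOfNat r _ hc₂]
      push_cast
      rw [coe_unitOfNat r _ hc₁]
      simpa using hw
    have hpow : (χ (Units.mk0 w hw0)) ^ p = 1 := by
      apply Multiplicative.toAdd.injective
      simp
    simp only [normChar, hN₁, hN₂]
    rw [hu, map_mul, map_pow, map_pow, hpow, mul_one]
    simp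
  have hprop : e q₁ * normChar K χ q₂ = e q₂ * normChar K χ q₁ := by
    rw [hχ₂, ← hd]; ring
  obtain ⟨M, _, _, _, _, a, b, hinj, hsurj, hM2, hM3⟩ :=
    exists_crossing_field hp K L hdeg hunr σ hσ e hfrob r hr hrp χ hχ
  exact crossing_of_field hp K e ψ hψp
    (fun q hq hq0 h => hψs q hq hq0 ((he0 q hq hq0).1 h))
    r hr hrp hpr χ hχ M a b hinj hsurj hM2 hM3 q₁ q₂ hq₁ hq₁0 hq₂ hq₂0 hr₁ hr₂ he₁ hχ₁ hprop

/-- The crossing identity for all primes. -/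
theorem crossing {p : ℕ} [Fact p.Prime] (hp : p ≠ 2)
    (K L : Type) [Field K] [NumberField K] [Field L] [NumberField L] [Algebra K L]
    [IsCyclotomicExtension {p} ℚ K] [IsGalois K L]
    (hdeg : Module.finrank K L = p)
    (hunr : UnramifiedEverywhere K L)
    (hsplit : ∀ q : Ideal (𝓞 K), q.IsPrime → ((p : ℕ) : 𝓞 K) ∈ q → SplitsCompletely K L q)
    (σ : L ≃ₐ[K] L) (hσ : σ ≠ 1) (e : Ideal (𝓞 K) → ZMod p)
    (hfrob : ∀ q : Ideal (𝓞 K), q.IsPrime → q ≠ ⊥ →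
      ∀ Q : Ideal (𝓞 L), Q.IsPrime → Q.LiesOver q →
        ∀ x : 𝓞 L, (σ ^ (e q).val) • x - x ^ Nat.card (𝓞 K ⧸ q) ∈ Q)
    (ψ : Ideal (𝓞 K) → ZMod p)
    (hψp : ∀ y : 𝓞 K, y ≠ 0 → principalSum K ψ y = 0)
    (hψs : ∀ q : Ideal (𝓞 K), q.IsPrime → q ≠ ⊥ → SplitsCompletely K L q → ψ q = 0)
    (q₁ q₂ : Ideal (𝓞 K)) (hq₁ : q₁.IsPrime) (hq₁0 : q₁ ≠ ⊥) (hq₂ : q₂.IsPrime) (hq₂0 : q₂ ≠ ⊥) :
    e q₁ * ψ q₂ = e q₂ * ψ q₁ := by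
  have he0 : ∀ q : Ideal (𝓞 K), q.IsPrime → q ≠ ⊥ → (e q = 0 ↔ SplitsCompletely K L q) :=
    fun q hq hq0 => Frob.frobExponent_eq_zero_iff K L hdeg hunr σ hσ q hq hq0 (e q)
      (hfrob q hq hq0)
  by_cases he₁ : e q₁ = 0
  · rw [he₁, hψs q₁ hq₁ hq₁0 ((he0 q₁ hq₁ hq₁0).1 he₁)]; ring
  by_cases he₂ : e q₂ = 0
  · rw [he₂, hψs q₂ hq₂ hq₂0 ((he0 q₂ hq₂ hq₂0).1 he₂)]; ring
  obtain ⟨ℓ₁, hℓ₁, hℓq₁⟩ := exists_prime_natCast_mem_of_ne_bot K q₁ hq₁ hq₁0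
  obtain ⟨ℓ₂, hℓ₂, hℓq₂⟩ := exists_prime_natCast_mem_of_ne_bot K q₂ hq₂ hq₂0
  by_cases h12 : ℓ₁ = ℓ₂
  · subst h12
    -- chain through a third non-split prime of another residue characteristic
    have hp1 : 1 < Module.finrank K L := by
      rw [hdeg]; exact (Fact.out : p.Prime).one_lt
    obtain ⟨P, hP, hPN, hPS, hPns⟩ := exists_prime_not_splitsCompletely K L hp1 {ℓ₁}
    have hP0 : P ≠ ⊥ := by
      rintro rfl
      rw [Ideal.absNorm_bot] at hPN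
      exact Nat.not_prime_zero hPN
    have he₃ : e P ≠ 0 := fun h => hPns ((he0 P hP hP0).1 h)
    have hℓ₃ : (Ideal.absNorm P) ≠ ℓ₁ := by simpa using hPS
    have hℓP : ((Ideal.absNorm P : ℕ) : 𝓞 K) ∈ P := Ideal.absNorm_mem P
    have h1 := crossing_distinct hp K L hdeg hunr hsplit σ hσ e hfrob ψ hψp hψs q₁ P hq₁ hq₁0 hP hP0
      he₁ he₃ ℓ₁ (Ideal.absNorm P) hℓ₁ hPN (Ne.symm hℓ₃) hℓq₁ hℓP
    have h2 := crossing_distinct hp K L hdeg hunr hsplit σ hσ e hfrob ψ hψp hψs P q₂ hP hP0 hq₂ hq₂0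
      he₃ he₂ (Ideal.absNorm P) ℓ₁ hPN hℓ₂ hℓ₃ hℓP hℓq₂
    apply mul_left_cancel₀ he₃
    calc e P * (e q₁ * ψ q₂) = e q₁ * (e P * ψ q₂) := by ring
      _ = e q₁ * (e q₂ * ψ P) := by rw [h2]
      _ = e q₂ * (e q₁ * ψ P) := by ring
      _ = e q₂ * (e P * ψ q₁) := by rw [h1]
      _ = e P * (e q₂ * ψ q₁) := by ring
  · exact crossing_distinct hp K L hdeg hunr hsplit σ hσ e hfrob ψ hψp hψs q₁ q₂ hq₁ hq₁0 hq₂ hq₂0
      he₁ he₂ ℓ₁ ℓ₂ hℓ₁ hℓ₂ h12 hℓq₁ hℓq₂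

/-- Artin reciprocity for the unramified cyclic extension `L/K` (statement of
`Iface/Reciprocity`). -/
theorem main {p : ℕ} [Fact p.Prime] (hp : p ≠ 2)
    (K L : Type) [Field K] [NumberField K] [Field L] [NumberField L] [Algebra K L]
    [IsCyclotomicExtension {p} ℚ K] [IsGalois K L]
    (hdeg : Module.finrank K L = p)
    (hunr : UnramifiedEverywhere K L)
    (hsplit : ∀ q : Ideal (𝓞 K), q.IsPrime → ((p : ℕ) : 𝓞 K) ∈ q → SplitsCompletely K L q)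
    (σ : L ≃ₐ[K] L) (hσ : σ ≠ 1) (e : Ideal (𝓞 K) → ZMod p)
    (hfrob : ∀ q : Ideal (𝓞 K), q.IsPrime → q ≠ ⊥ →
      ∀ Q : Ideal (𝓞 L), Q.IsPrime → Q.LiesOver q →
        ∀ x : 𝓞 L, (σ ^ (e q).val) • x - x ^ Nat.card (𝓞 K ⧸ q) ∈ Q)
    (y : 𝓞 K) (hy : y ≠ 0) :
    principalSum K e y = 0 := by
  have hζ : ∃ ζ : K, IsPrimitiveRoot ζ p :=
    IsCyclotomicExtension.exists_isPrimitiveRoot ℚ K (Set.mem_singleton p)
      (Fact.out : p.Prime).ne_zero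
  obtain ⟨ψ, ⟨q₀, hq₀, hq₀0, -, hψq₀⟩, hψs, hψp⟩ :=
    firstInequality hp K L hζ hdeg ∅ (by simp) (fun Q hQ hQ0 _ => hunr Q hQ hQ0)
  have hψs' : ∀ q : Ideal (𝓞 K), q.IsPrime → q ≠ ⊥ → SplitsCompletely K L q → ψ q = 0 :=
    fun q hq hq0 h => hψs q hq hq0 (by simp) h
  have hψp' : ∀ y : 𝓞 K, y ≠ 0 → principalSum K ψ y = 0 :=
    fun y hy => hψp y hy (by simp)
  have hcross := crossing hp K L hdeg hunr hsplit σ hσ e hfrob ψ hψp' hψs'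
  have hprop : ∀ q : Ideal (𝓞 K), q.IsPrime → q ≠ ⊥ → e q = (e q₀ / ψ q₀) * ψ q := by
    intro q hq hq0
    have h := hcross q q₀ hq hq0 hq₀ hq₀0
    field_simp
    rw [h]
  rw [Frob.principalSum_congr K e (fun q => (e q₀ / ψ q₀) * ψ q) y hy
    (fun q hq hq0 _ => hprop q hq hq0), principalSum_const_mul, hψp' y hy, mul_zero]

end Fermat.Agent.S14.Crossing
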